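import Fermat.Agent.GAL.Model
import Fermat.Agent.GAL.RED.Defs

/-!
# DR/Gal : the abstract interface between DR/Abs + DR/Conc and the Galois step (6) of the DR plan

Setting (report 210): `F / K` function field (level `q M'`), `Fb / k` function field (level `M'` in
characteristic `q`), two reductions `R1` (Gauss valuation at `∞`), `R2 = R1 ∘ w_q`.

* `regOff K j` : the ring of functions which are regular wherever `j` is (`= ⋃ₐ L(a (j)_∞)`).
* `UnitAt P u` : `u` is a unit at the place `P`.
* `TwoRed` : the data `(R1, R2, j, jb, S)`; `S` = any set of places of `Fb` containing the nodes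
  `P` and their partners `Φ P` (e.g. `S = Fix (Φ²)`).
* `IsNorm X m f c` : `red₁ f = 1`, `red₂ (f / c ^ m) = 1`  (normalised representative of a class of
  `K_tor`, `c ^ m = c₀`).
* `IsSec X m f c y u u'` : `y ∈ ⋃ₐ L(a X_∞ + D)` (`div f = m D`) is integral for the twisted norm
  `max (|y|₁, |c y|₂)` and has twisted reduction `(u, u')`.
* `Test X m`, `ExistsSec X m` : **the only two statements which DR/Gal consumes from
  (4) + (5) of the plan.**  No node, no `δ` is visible.
-/

set_option autoImplicit false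

noncomputable section

namespace Fermat.Agent.DR.Gal

open AlgebraicCurve Fermat.Agent.GAL Fermat.Agent.GAL.RED

/-- The ring of functions which are regular wherever `j` is regular. -/
def regOff (K : Type*) {F : Type*} [Field K] [Field F] [Algebra K F] (j : F) : Subalgebra K F where
  carrier := {y | ∀ P : Place K F, j ∈ P.toValuationSubring → y ∈ P.toValuationSubring}
  mul_mem' := fun ha hb P hP => P.toValuationSubring.mul_mem _ _ (ha P hP) (hb P hP)
  add_mem' := fun ha hb P hP => P.toValuationSubring.add_mem _ _ (ha P hP) (hb P hP)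
  algebraMap_mem' := fun a P _ => P.algebraMap_mem' a

variable {K F k Fb : Type*} [Field K] [Field F] [Algebra K F] [Field k] [Field Fb] [Algebra k Fb]

theorem mem_regOff {j y : F} :
    y ∈ regOff K j ↔ ∀ P : Place K F, j ∈ P.toValuationSubring → y ∈ P.toValuationSubring :=
  Iff.rfl

/-- `u` is a unit at the place `P`. -/
def UnitAt (P : Place K F) (u : F) : Prop :=
  u ≠ 0 ∧ u ∈ P.toValuationSubring ∧ u⁻¹ ∈ P.toValuationSubring

variable (K F k Fb) in
/-- Two reductions of `F` with the same residue field `Fb`. -/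
structure TwoRed where
  /-- the reduction at `∞` -/
  R1 : RedData K F k Fb
  /-- the reduction at `0` -/
  R2 : RedData K F k Fb
  /-- the `j`-function of `F` -/
  j : F
  /-- the `j`-function of `Fb` -/
  jb : Fb
  /-- a set of places of `Fb` containing all `P`, `Φ P`, `P` a node -/
  S : Set (Place k Fb)

/-- `(f, c)` is normalised: `red₁ f = 1` and `red₂ (f / c ^ m) = 1`. -/
structure IsNorm (X : TwoRed K F k Fb) (m : ℕ) (f : F) (c : K) : Prop where
  c_ne : c ≠ 0
  red1 : X.R1.red f = 1
  red2 : X.R2.red (f / algebraMap K F c ^ m) = 1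

/-- `y` is a section of `⋃ₐ L(a X_∞ + D)`, `div f = m D`, integral for the twisted norm
`max (|y|₁, |c y|₂)`, with twisted reduction `(u, u')`. -/
structure IsSec (X : TwoRed K F k Fb) (m : ℕ) (f : F) (c : K) (y : F) (u u' : Fb) : Prop where
  reg : y ^ m * f ∈ regOff K X.j
  mem1 : y ∈ X.R1.O
  mem2 : algebraMap K F c * y ∈ X.R2.O
  red1 : X.R1.red y = u
  red2 : X.R2.red (algebraMap K F c * y) = u'

/-- **(T)**  `= (4) + (5)`: if a section of the twisted sheaf and a section of the trivial sheaf have
the same reduction, which does not vanish at the nodes, then `δ = 1`, hence the class is trivial. -/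
def Test (X : TwoRed K F k Fb) (m : ℕ) : Prop :=
  ∀ f : Fˣ, f ∈ kummerUnits K F m → ∀ c : K, IsNorm X m (f : F) c →
    ∀ (y z : F) (u u' : Fb), IsSec X m (f : F) c y u u' → IsSec X m 1 1 z u u' →
      (∀ P ∈ X.S, UnitAt P u ∧ UnitAt P u') → ∃ x : Fˣ, x ^ m = f

/-- **(E)**  `= (4) + RR on C`: there are sections not vanishing at the nodes; all reductions of
sections are regular outside the cusps. -/
def ExistsSec (X : TwoRed K F k Fb) (m : ℕ) : Prop :=
  ∀ f : Fˣ, f ∈ kummerUnits K F m → ∀ c : K, IsNorm X m (f : F) c →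
    ∃ (y : F) (u u' : Fb), IsSec X m (f : F) c y u u' ∧ u ∈ regOff k X.jb ∧ u' ∈ regOff k X.jb ∧
      ∀ P ∈ X.S, UnitAt P u ∧ UnitAt P u'

/-- The semilinear automorphism `g` of `F` is compatible with the reduction `R` and induces `gb`
on the residue field. -/
structure Compat (R : RedData K F k Fb) (g : SemilinearAut K F) (gb : Fb ≃+* Fb) : Prop where
  mem : ∀ y ∈ R.O, g • y ∈ R.O
  red : ∀ y ∈ R.O, R.red (g • y) = gb (R.red y)

/-- Every nonzero function can be scaled to a unit of `R.O`. -/
def HasScale (R : RedData K F k Fb) : Prop :=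
  ∀ f : F, f ≠ 0 → ∃ a : K, a ≠ 0 ∧ R.red (algebraMap K F a * f) ≠ 0

/-- `O₁ ∩ O₂ → Fb × Fb` is onto. -/
def PairSurj (X : TwoRed K F k Fb) : Prop :=
  ∀ u u' : Fb, ∃ y : F, y ∈ X.R1.O ∧ y ∈ X.R2.O ∧ X.R1.red y = u ∧ X.R2.red y = u'

/-- The classes which have a representative reducing to `1`. -/
def Kone (R : RedData K F k Fb) (m : ℕ) : Set (KV K F m) :=
  {x | ∃ f : kummerUnits K F m, KV.mk f = x ∧ R.red ((f : Fˣ) : F) = 1}

/-- `K_tor`. -/
def Ktor (X : TwoRed K F k Fb) (m : ℕ) : Set (KV K F m) := Kone X.R1 m ∩ Kone X.R2 m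

end Fermat.Agent.DR.Gal
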