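import Fermat.Agent.DR.Gal.DR2
import Fermat.Agent.DR.Conc.RedData
import Fermat.Agent.DR.Interface
import Fermat.Agent.S28.CInt
import Fermat.Agent.S28.B
import Fermat.Agent.S28.A
import Fermat.Agent.GAL.Igusa.PoleSpace

/-!
# DR/Gal : instantiation of the abstract Galois step at level `M q`

`A` a place of `Kbar` over the prime `q ∤ M`, `kA` its residue field, `F = FN (M q)`,
`Fb = E kA M`, `R1`, `R2` the reduction data of `DR/Conc/RedData.lean`.

* `XX A M q hq hqM hA x xb S` : the `TwoRed` structure (`x` any coordinate, e.g. `j`, `j j_q` or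
  `P₂(j) P₂(j_q) / (P₁(j) P₁(j_q))`);
* `DRGeom A M q hq hqM hA m` : **what DR/Abs + DR/Conc have to deliver** (a coordinate `x` whose polar
  set is stable under `G_ℚ` and `W`; `(T)`, `(E)` for a Frobenius stable set of places `S`;
  `PairSurj`, `Old`);
* `unipotent_of_DRGeom` : DR1,   `frob_of_DRGeom` : DR2.
-/

set_option autoImplicit false
set_option linter.unusedSectionVars false

noncomputable section

namespace Fermat.Agent.DR.Gal

open ModularCurve AlgebraicCurve Fermat.Agent.S24 Fermat.Agent.GAL Fermat.Agent.GAL.Gauss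
  Fermat.Agent.GAL.RED Fermat.Agent.GAL.Igusa

variable (A : ValuationSubring Kbar) (M q : ℕ) [NeZero M] [NeZero q] (hq : q.Prime)
  (hqM : ¬ q ∣ M) (hA : A.LiesOverPrime q)

/-- The two reductions of `FN (M q)`, with a coordinate `x` (reduction "`xb`") and a set `S` of
places of the residue field. -/
def XX (x : FN (M * q)) (xb : E (IsLocalRing.ResidueField ↥A) M)
    (S : Set (Place (IsLocalRing.ResidueField ↥A) (E (IsLocalRing.ResidueField ↥A) M))) :
    TwoRed Kbar (FN (M * q)) (IsLocalRing.ResidueField ↥A) (E (IsLocalRing.ResidueField ↥A) M) where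
  R1 := Conc.R1 A M q hq hqM hA
  R2 := Conc.R2 A M q hq hqM hA
  j := x
  jb := xb
  S := S

/-- The Galois action on `FN (M q)`. -/
abbrev gal (N : ℕ) (σ : GQ) : SemilinearAut Kbar (FN N) :=
  arithmeticGalois (modularFunctionFieldFull N) σ

theorem coe_gal_smul (N : ℕ) (σ : GQ) (y : FN N) :
    ((gal N σ • y : FN N) : LaurentSeries Kbar) =
      coeffMap ((σ : Kbar ≃ₐ[ℚ] Kbar) : Kbar →+* Kbar) (y : LaurentSeries Kbar) := rfl

/-- The Atkin-Lehner involution as a semilinear automorphism. -/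
def wS : SemilinearAut Kbar (FN (M * q)) := SemilinearAut.ofAlgAut (Conc.W M q hq hqM)

theorem wS_smul (y : FN (M * q)) : wS M q hq hqM • y = Conc.W M q hq hqM y := rfl

/-! ### Leaves -/

/-- (G1) `j` is Galois invariant. -/
theorem gal_smul_jN (σ : GQ) : gal (M * q) σ • Conc.jN M q = Conc.jN M q := by
  apply Subtype.ext
  rw [coe_gal_smul, Conc.coe_jN, coeffMap_jqModC]

include hq in
/-- (G2) `j_q = j(t^q)` is regular wherever `j` is (it is integral over `Kbar[j]`: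
`S28.isIntegral_jd`, `Igusa.mem_place_of_isIntegral`). -/
theorem jqN_mem_regOff : Conc.jqN M q ∈ regOff Kbar (Conc.jN M q) := by
  obtain ⟨Φ, U, G, m, c, hB⟩ := S28.statementB S28.statementA q hq
  have hqK : (q : AlgebraicClosure Kbar) ≠ 0 := Nat.cast_ne_zero.mpr hq.ne_zero
  have h0 := S28.Phi_jd Kbar hB hqK 1 one_ne_zero
  rw [S28.jd_one, mul_one, S28.jd_eq] at h0
  have h1 : (Φ.map (S28.evY (Conc.jN M q))).eval (Conc.jqN M q) = 0 := by
    apply (algebraMap (FN (M * q)) (LaurentSeries Kbar)).injective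
    rw [S28.map_eval_evY, map_zero]
    have e1 : algebraMap (FN (M * q)) (LaurentSeries Kbar) (Conc.jN M q) = jqModC Kbar :=
      Conc.coe_jN M q
    have e2 : algebraMap (FN (M * q)) (LaurentSeries Kbar) (Conc.jqN M q) =
        qExpand Kbar q (jqModC Kbar) := Conc.coe_jqN M q
    rw [e1, e2]
    exact h0
  have h2 : IsIntegral (Algebra.adjoin Kbar {Conc.jN M q}) (Conc.jqN M q) :=
    S28.isIntegral_of_evY Φ hB.2.1 (Conc.jN M q) _
      (isIntegral_algebraMap (R := Algebra.adjoin Kbar {Conc.jN M q}) (A := FN (M * q))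
        (x := ⟨Conc.jN M q, Algebra.subset_adjoin (Set.mem_singleton _)⟩)) h1
  intro P hP
  exact mem_place_of_isIntegral P hP h2

/-- (G3) an element of the decomposition group is compatible with `R1`. -/
theorem compat_R1 (σ : GQ) (hσ : σ ∈ A.decompositionSubgroup ℚ)
    (σb : IsLocalRing.ResidueField ↥A →+* IsLocalRing.ResidueField ↥A)
    (hσb : ∀ x : IsLocalRing.ResidueField ↥A,
      (⟨σ, hσ⟩ : A.decompositionSubgroup ℚ) • x = σb x)
    (gb : E (IsLocalRing.ResidueField ↥A) M ≃+* E (IsLocalRing.ResidueField ↥A) M)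
    (hgb : ∀ u : E (IsLocalRing.ResidueField ↥A) M,
      ((gb u : E (IsLocalRing.ResidueField ↥A) M) : LaurentSeries (IsLocalRing.ResidueField ↥A)) =
        coeffMap σb (u : LaurentSeries (IsLocalRing.ResidueField ↥A))) :
    Compat (Conc.R1 A M q hq hqM hA) (gal (M * q) σ) gb := by
  have h1 : ∀ a, a ∈ A → ((σ : Kbar ≃ₐ[ℚ] Kbar) : Kbar →+* Kbar) a ∈ A := fun a ha =>
    ((⟨σ, hσ⟩ : A.decompositionSubgroup ℚ) • (⟨a, ha⟩ : A)).2
  have h2 : ∀ (a : Kbar) (ha : a ∈ A), IsLocalRing.residue ↥A ⟨_, h1 a ha⟩ =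
      σb (IsLocalRing.residue ↥A ⟨a, ha⟩) := by
    intro a ha
    rw [← hσb, ← IsLocalRing.ResidueField.residue_smul]
    rfl
  have hmem : ∀ y ∈ (Conc.R1 A M q hq hqM hA).O,
      gal (M * q) σ • y ∈ (Conc.R1 A M q hq hqM hA).O := by
    intro y hy
    rw [Conc.mem_R1_O_iff] at hy ⊢
    rw [coe_gal_smul]
    exact Conc.coeffMap_mem_gRing A _ h1 σb h2 hy
  refine ⟨hmem, fun y hy => ?_⟩
  apply Subtype.ext
  rw [hgb, Conc.coe_R1_red A M q hq hqM hA _ ((Conc.mem_R1_O_iff A M q hq hqM hA _).1 (hmem y hy)),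
    Conc.coe_R1_red A M q hq hqM hA _ ((Conc.mem_R1_O_iff A M q hq hqM hA _).1 hy)]
  exact Conc.gRes_coeffMap A _ h1 σb h2 _

/-- (G3a) inertia. -/
theorem compat_R1_of_inertia (σ : GQ) (hσ : σ ∈ A.inertiaSubgroupIn ℚ) :
    Compat (Conc.R1 A M q hq hqM hA) (gal (M * q) σ) (RingEquiv.refl _) := by
  obtain ⟨s, hs, rfl⟩ := hσ
  refine compat_R1 A M q hq hqM hA _ s.2 (RingHom.id _) (fun x => ?_) _ (fun u => ?_)
  · have h : MulSemiringAction.toRingAut (A.decompositionSubgroup ℚ)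
        (IsLocalRing.ResidueField A) s = 1 := hs
    exact congrArg (fun f : RingAut (IsLocalRing.ResidueField A) => f x) h
  · rw [coeffMap_id]
    rfl

/-- (G4) `W` commutes with the Galois action. -/
theorem wS_gal (σ : GQ) (y : FN (M * q)) :
    wS M q hq hqM • gal (M * q) σ • y = gal (M * q) σ • wS M q hq hqM • y :=
  Conc.W_galois M q hq hqM σ y

/-- (G5) `W` exchanges the two reductions. -/
theorem swaps (x : FN (M * q)) (xb : E (IsLocalRing.ResidueField ↥A) M)
    (S : Set (Place (IsLocalRing.ResidueField ↥A) (E (IsLocalRing.ResidueField ↥A) M)))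
    (hx : Conc.W M q hq hqM x ∈ regOff Kbar x) :
    Swaps (XX A M q hq hqM hA x xb S) (wS M q hq hqM) where
  const a := AlgEquiv.commutes (Conc.W M q hq hqM) a
  invol y := Conc.W_W M q hq hqM y
  mem y := Conc.mem_R2_O_iff A M q hq hqM hA y
  red y := Conc.R2_red A M q hq hqM hA y
  reg := hx

/-- the coordinate `j` is admissible. -/
theorem W_jN_mem_regOff : Conc.W M q hq hqM (Conc.jN M q) ∈ regOff Kbar (Conc.jN M q) := by
  rw [Conc.W_jN]
  exact jqN_mem_regOff M q hq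

theorem compat_R2_of_inertia (σ : GQ) (hσ : σ ∈ A.inertiaSubgroupIn ℚ) :
    Compat (Conc.R2 A M q hq hqM hA) (gal (M * q) σ) (RingEquiv.refl _) :=
  (swaps A M q hq hqM hA (Conc.jN M q) 0 ∅ (W_jN_mem_regOff M q hq hqM)).compat
    (compat_R1_of_inertia A M q hq hqM hA σ hσ) (wS_gal M q hq hqM σ)

/-- `UnitAt` and semilinear automorphisms. -/
theorem unitAt_smul_iff {k Fb : Type*} [Field k] [Field Fb] [Algebra k Fb]
    (g : SemilinearAut k Fb) (P : Place k Fb) (u : Fb) :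
    UnitAt P (g • u) ↔ UnitAt (g⁻¹ • P) u := by
  unfold UnitAt
  rw [SemilinearAut.smul_toValuationSubring,
    ValuationSubring.mem_pointwise_smul_iff_inv_smul_mem,
    ValuationSubring.mem_pointwise_smul_iff_inv_smul_mem, inv_inv, smul_inv'', smul_ne_zero_iff_ne]

/-- `K_tor` at level `M q`. -/
def KtorC (m : ℕ) : Set (KV Kbar (FN (M * q)) m) :=
  Kone (Conc.R1 A M q hq hqM hA) m ∩ Kone (Conc.R2 A M q hq hqM hA) m

/-- `w_q` on the Kummer model is the action of `wS`. -/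
theorem wKV_eq (m : ℕ) (x : KV Kbar (FN (M * q)) m) : wKV M q m x = wS M q hq hqM • x := by
  obtain ⟨u, rfl⟩ := KV.mk_surjective x
  rw [KV.semilinear_smul_mk, wKV, KV.map_mk]
  congr 1
  apply Subtype.ext
  apply Units.ext
  show wq M q _ = Conc.W M q hq hqM _
  rw [wq, dif_pos ⟨hq, hqM⟩]
  rfl

section Frob

variable [Fact q.Prime] [CharP (IsLocalRing.ResidueField ↥A) q]
  [PerfectRing (IsLocalRing.ResidueField ↥A) q]

/-- **What DR/Abs + DR/Conc have to deliver** at the place `A` over `q`, for the level `M q`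
(`M` neat) and the exponent `m` (prime to `q`). -/
def DRGeom (m : ℕ) : Prop :=
  ∃ (x : FN (M * q)) (xb : E (IsLocalRing.ResidueField ↥A) M)
    (S : Set (Place (IsLocalRing.ResidueField ↥A) (E (IsLocalRing.ResidueField ↥A) M))),
    (∀ σ ∈ A.decompositionSubgroup ℚ, gal (M * q) σ • x ∈ regOff Kbar x) ∧
    Conc.W M q hq hqM x ∈ regOff Kbar x ∧
    (∀ P ∈ S, (Conc.Fr (IsLocalRing.ResidueField ↥A) M q)⁻¹ • P ∈ S) ∧
    Test (XX A M q hq hqM hA x xb S) m ∧ ExistsSec (XX A M q hq hqM hA x xb S) m ∧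
    PairSurj (XX A M q hq hqM hA x xb S) ∧
    Old (XX A M q hq hqM hA x xb S) (Conc.FrE (IsLocalRing.ResidueField ↥A) M q) q

theorem mem_decomposition_of_inertia {σ : GQ} (hσ : σ ∈ A.inertiaSubgroupIn ℚ) :
    σ ∈ A.decompositionSubgroup ℚ := by
  obtain ⟨s, -, rfl⟩ := hσ
  exact s.2

/-- (G3b) Frobenius. -/
theorem compat_R1_of_frobenius (σ : GQ) (hσ : A.IsFrobeniusAt σ q) :
    Compat (Conc.R1 A M q hq hqM hA) (gal (M * q) σ)
      (Conc.FrE (IsLocalRing.ResidueField ↥A) M q) :=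
  compat_R1 A M q hq hqM hA σ hσ.mem_decompositionSubgroup
    (frobenius (IsLocalRing.ResidueField ↥A) q) (fun x => hσ.smul_residue_eq x) _ (fun _ => rfl)

/-- **DR1 at level `M q`.** -/
theorem unipotent_of_DRGeom {m : ℕ} (hm : 0 < m) (h : DRGeom A M q hq hqM hA m)
    (σ τ : GQ) (hσ : σ ∈ A.inertiaSubgroupIn ℚ) (hτ : τ ∈ A.inertiaSubgroupIn ℚ)
    (x : KV Kbar (FN (M * q)) m) : σ • τ • x - σ • x - τ • x + x = 0 := by
  obtain ⟨x₀, xb, S, hgal, -, -, hT, hE, hP, -⟩ := h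
  have key := smul_sub_smul_sub (XX A M q hq hqM hA x₀ xb S) hT hE hP
    (Conc.R1_scale A M q hq hqM hA) (Conc.R2_scale A M q hq hqM hA)
    (fun a => IsAlgClosed.exists_pow_nat_eq a hm) (gal (M * q) τ) (gal (M * q) σ)
    (hgal σ (mem_decomposition_of_inertia A hσ))
    (compat_R1_of_inertia A M q hq hqM hA τ hτ) (compat_R2_of_inertia A M q hq hqM hA τ hτ)
    (compat_R1_of_inertia A M q hq hqM hA σ hσ) (compat_R2_of_inertia A M q hq hqM hA σ hσ) x
  have key' : σ • (τ • x - x) = τ • x - x := key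
  rw [smul_sub] at key'
  rw [sub_eq_iff_eq_add] at key'
  rw [key']
  abel

/-- inertia acts trivially on `K_tor`. -/
theorem inertia_smul_of_DRGeom {m : ℕ} (h : DRGeom A M q hq hqM hA m)
    (σ : GQ) (hσ : σ ∈ A.inertiaSubgroupIn ℚ)
    {x : KV Kbar (FN (M * q)) m} (hx : x ∈ KtorC A M q hq hqM hA m) : σ • x = x := by
  obtain ⟨x₀, xb, S, hgal, -, -, hT, hE, hP, -⟩ := h
  exact smul_eq_of_mem_Ktor (XX A M q hq hqM hA x₀ xb S) hT hE hP (Conc.R2_scale A M q hq hqM hA)
    (gal (M * q) σ) (hgal σ (mem_decomposition_of_inertia A hσ))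
    (compat_R1_of_inertia A M q hq hqM hA σ hσ) (compat_R2_of_inertia A M q hq hqM hA σ hσ) hx

/-- `(σ - 1) V ⊆ K_tor` for `σ` in the inertia group. -/
theorem inertia_smul_sub_mem_KtorC {m : ℕ} (hm : 0 < m)
    (σ : GQ) (hσ : σ ∈ A.inertiaSubgroupIn ℚ) (x : KV Kbar (FN (M * q)) m) :
    σ • x - x ∈ KtorC A M q hq hqM hA m :=
  smul_sub_mem_Ktor (XX A M q hq hqM hA 0 0 ∅) (fun a => IsAlgClosed.exists_pow_nat_eq a hm)
    (Conc.R1_scale A M q hq hqM hA) (Conc.R2_scale A M q hq hqM hA) (gal (M * q) σ)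
    (compat_R1_of_inertia A M q hq hqM hA σ hσ) (compat_R2_of_inertia A M q hq hqM hA σ hσ) x

/-- **DR2 at level `M q`**: `φ = - q w_q` on `K_tor`. -/
theorem frob_of_DRGeom {m : ℕ} (h : DRGeom A M q hq hqM hA m)
    (σ : GQ) (hσ : A.IsFrobeniusAt σ q)
    {x : KV Kbar (FN (M * q)) m} (hx : x ∈ KtorC A M q hq hqM hA m) :
    σ • x + q • wKV M q m x = 0 := by
  obtain ⟨x₀, xb, S, hgal, hW, hS, hT, hE, hP, hO⟩ := h
  rw [wKV_eq M q hq hqM]
  exact frob_add_smul_of_mem_Ktor (XX A M q hq hqM hA x₀ xb S) q hT hE hP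
    (Conc.R2_scale A M q hq hqM hA) (wS M q hq hqM) (gal (M * q) σ)
    (Conc.FrE (IsLocalRing.ResidueField ↥A) M q) (swaps A M q hq hqM hA x₀ xb S hW)
    (wS_gal M q hq hqM σ) (hgal σ hσ.mem_decompositionSubgroup)
    (compat_R1_of_frobenius A M q hq hqM hA σ hσ)
    (fun u hu P hP' => by
      have := (unitAt_smul_iff (Conc.Fr (IsLocalRing.ResidueField ↥A) M q) P u).2
        (hu _ (hS P hP'))
      exact this)
    hO hx

end Frob

end Fermat.Agent.DR.Gal
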