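import Fermat.Agent.DR.Gal.Conc
import Fermat.Agent.GAL.Igusa.RedLevel

/-!
# DR/Gal : outputs

* `kvUnipotent_of_DRGeom` : `KVUnipotent M q p` (the `Prop` of `DR/Interface.lean` consumed by S34) from
  `DRGeom` at all places over `q` and all exponents `p ^ k`;
* `DR2 M q p`, `dr2_of_DRGeom` : `φ = - q w_q` on `K_tor` (consumed by DR/Hecke for DR3).
-/

set_option autoImplicit false
set_option linter.unusedSectionVars false
set_option linter.style.haveILetI false

noncomputable section

namespace Fermat.Agent.DR.Gal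

open ModularCurve AlgebraicCurve Fermat.Agent.S24 Fermat.Agent.GAL Fermat.Agent.GAL.Gauss
  Fermat.Agent.GAL.RED Fermat.Agent.GAL.Igusa

variable (M q : ℕ) [NeZero M] [NeZero q] (hq : q.Prime) (hqM : ¬ q ∣ M)

/-- The residue field of a place of `Kbar` over `q` is perfect. -/
theorem perfectRing_residueField (A : ValuationSubring Kbar) [Fact q.Prime]
    [CharP (IsLocalRing.ResidueField ↥A) q] : PerfectRing (IsLocalRing.ResidueField ↥A) q := by
  haveI : IsAlgClosed (IsLocalRing.ResidueField ↥A) := isAlgClosed_residueField A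
  infer_instance

/-- `DRGeom` at all places over `q`, for the exponents `p ^ k`. -/
def DRGeomAll (p : ℕ) : Prop :=
  ∀ (A : ValuationSubring Kbar) (hA : A.LiesOverPrime q) [Fact q.Prime]
    [CharP (IsLocalRing.ResidueField ↥A) q] [PerfectRing (IsLocalRing.ResidueField ↥A) q] (k : ℕ),
    DRGeom A M q hq hqM hA (p ^ k)

/-- **DR1** in the form consumed by S34. -/
theorem kvUnipotent_of_DRGeom {p : ℕ} (hp : 0 < p) (h : DRGeomAll M q hq hqM p) :
    KVUnipotent M q p := by
  refine ⟨1, one_ne_zero, fun k A hA σ hσ τ hτ x => ?_⟩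
  haveI : Fact q.Prime := ⟨hq⟩
  haveI := Hecke.charP_residueField A hq hA
  haveI := perfectRing_residueField q A
  rw [one_smul]
  exact unipotent_of_DRGeom A M q hq hqM hA (pow_pos hp k) (h A hA k) σ τ hσ hτ x

/-- **DR2**: every Frobenius element at `q` acts as `- q w_q` on `K_tor`. -/
def DR2 (p : ℕ) : Prop :=
  ∀ (k : ℕ) (A : ValuationSubring Kbar) (hA : A.LiesOverPrime q) (σ : GQ), A.IsFrobeniusAt σ q →
    ∀ x ∈ KtorC A M q hq hqM hA (p ^ k), σ • x + q • wKV M q (p ^ k) x = 0

theorem dr2_of_DRGeom {p : ℕ} (h : DRGeomAll M q hq hqM p) : DR2 M q hq hqM p := by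
  intro k A hA σ hσ x hx
  haveI : Fact q.Prime := ⟨hq⟩
  haveI := Hecke.charP_residueField A hq hA
  haveI := perfectRing_residueField q A
  exact frob_of_DRGeom A M q hq hqM hA (h A hA k) σ hσ hx

end Fermat.Agent.DR.Gal
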