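import Fermat.Agent.DR.Interface
import Fermat.Agent.DR.Hecke.QExp

/-!
# DR/Gal: change of the auxiliary level `M ∣ M'`

`KVUnipotent M' q p → KVUnipotent M q p` and `KVNewFrob M' q p → KVNewFrob M q p` for `M ∣ M'`
(`q ∤ M'`). Hence it is enough to prove (DR1), (DR3) at neat levels (`4 ∣ M` or `9 ∣ M`).

`pullKV` = pull-back `V_m(F(N)) → V_m(F(N'))` along the inclusion; its kernel is killed by the degree
(norm); it commutes with Galois, with `w_q` (generators) and with `α_*` (norm formula on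
`q`-expansions at both levels).
-/

set_option autoImplicit false
set_option linter.style.haveILetI false

noncomputable section

namespace Fermat.Agent.DR.Gal

open AlgebraicCurve ModularCurve Fermat.Agent.S24 Fermat.Agent.GAL Fermat.Agent.GAL.Hecke

section Abstract

variable {K F F' : Type*} [Field K] [Field F] [Field F'] [Algebra K F] [Algebra K F']

/-- Pull-back on the Kummer model along an integral homomorphism. -/
def pullKV (φ : F →ₐ[K] F') (hφ : φ.toRingHom.IsIntegral) (m : ℕ) : KV K F m →+ KV K F' m :=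
  KV.map (Units.map (φ : F →* F')) (fun _ hu => map_mem_kummerUnits φ hφ hu)

theorem pullKV_mk (φ : F →ₐ[K] F') (hφ : φ.toRingHom.IsIntegral) (m : ℕ)
    (u : kummerUnits K F m) :
    pullKV φ hφ m (KV.mk u) =
      KV.mk ⟨Units.map (φ : F →* F') u, map_mem_kummerUnits φ hφ u.2⟩ := rfl

theorem normAlong_apply_self (φ : F →ₐ[K] F') (x : F) :
    normAlong φ (φ x) = x ^ finrankAlong K φ := by
  letI := algebraAlong φ
  exact Algebra.norm_algebraMap x

/-- The kernel of the pull-back is killed by the degree. -/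
theorem nsmul_eq_zero_of_pullKV_eq_zero (φ : F →ₐ[K] F') (hφ : φ.toRingHom.IsIntegral) (m : ℕ)
    (x : KV K F m) (h : pullKV φ hφ m x = 0) : finrankAlong K φ • x = 0 := by
  obtain ⟨u, rfl⟩ := KV.mk_surjective x
  rw [pullKV_mk, KV.mk_eq_zero_iff] at h
  obtain ⟨y, hy⟩ := h
  rw [← KV.mk_pow, KV.mk_eq_zero_iff]
  refine ⟨Units.map (normAlong φ) y, ?_⟩
  rw [← map_pow, hy]
  apply Units.ext
  exact normAlong_apply_self φ _

theorem finrankAlong_ne_zero (φ : F →ₐ[K] F') (hfin : FiniteAlong K φ) :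
    finrankAlong K φ ≠ 0 := by
  letI := algebraAlong φ
  haveI : Module.Finite F F' := hfin
  exact (Module.finrank_pos (R := F) (M := F')).ne'

end Abstract

section Level

theorem FN_le {N N' : ℕ} [NeZero N] [NeZero N'] (h : N ∣ N') :
    modularFunctionFieldBar N ≤ modularFunctionFieldBar N' := by
  obtain ⟨c, rfl⟩ := h
  haveI : NeZero c := ⟨fun h0 => NeZero.ne (N * c) (by rw [h0, mul_zero])⟩
  intro x hx
  have := (heckeAlphaBar Kbar N c ⟨x, hx⟩).2
  rwa [coe_heckeAlphaBar] at this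

/-- The inclusion `F(N) ⊆ F(N')` for `N ∣ N'`. -/
def lvl {N N' : ℕ} [NeZero N] [NeZero N'] (h : N ∣ N') : FN N →ₐ[Kbar] FN N' :=
  IntermediateField.inclusion (FN_le h)

variable {N N' : ℕ} [NeZero N] [NeZero N'] (h : N ∣ N')

theorem coe_lvl (x : FN N) : ((lvl h x : FN N') : LaurentSeries Kbar) = (x : LaurentSeries Kbar) :=
  IntermediateField.coe_inclusion (FN_le h) x

theorem lvl_jF : lvl h (jF N) = jF N' := by
  apply Subtype.ext
  rw [coe_lvl]
  rfl

theorem finiteAlong_lvl : FiniteAlong Kbar (lvl h) := by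
  haveI : FiniteDimensional (IntermediateField.adjoin Kbar {lvl h (jF N)}) (FN N') := by
    rw [lvl_jF]
    exact finiteDimensional_jF N'
  exact finiteAlong_of_finiteDimensional (lvl h) (jF N)

theorem integral_lvl : (lvl h).toRingHom.IsIntegral :=
  RingHom.IsIntegral.of_finite (finiteAlong_lvl h)

/-- Pull-back `V_m(F(N)) → V_m(F(N'))`. -/
def lvlKV (m : ℕ) : KV Kbar (FN N) m →+ KV Kbar (FN N') m := pullKV (lvl h) (integral_lvl h) m

theorem lvlKV_mk (m : ℕ) (u : kummerUnits Kbar (FN N) m) :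
    lvlKV h m (KV.mk u) = KV.mk ⟨Units.map (lvl h : FN N →* FN N') u,
      map_mem_kummerUnits (lvl h) (integral_lvl h) u.2⟩ := rfl

theorem lvl_arithmeticRingAut (σ : GQ) (f : FN N) :
    lvl h (arithmeticRingAut (modularFunctionFieldFull N) σ f)
      = arithmeticRingAut (modularFunctionFieldFull N') σ (lvl h f) :=
  Subtype.ext (by
    rw [coe_lvl, coe_arithmeticRingAut_apply, coe_arithmeticRingAut_apply, coe_lvl])

theorem lvlKV_galois (m : ℕ) (σ : GQ) (x : KV Kbar (FN N) m) :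
    lvlKV h m (σ • x) = σ • lvlKV h m x := by
  obtain ⟨u, rfl⟩ := KV.mk_surjective x
  rw [lvlKV_mk, KV.galois_smul_mk, KV.galois_smul_mk, lvlKV_mk]
  refine congrArg KV.mk (Subtype.ext (Units.ext ?_))
  exact lvl_arithmeticRingAut h σ _

theorem nsmul_eq_zero_of_lvlKV (m : ℕ) (x : KV Kbar (FN N) m) (hx : lvlKV h m x = 0) :
    finrankAlong Kbar (lvl h) • x = 0 :=
  nsmul_eq_zero_of_pullKV_eq_zero (lvl h) (integral_lvl h) m x hx

end Level

section Unipotent

variable {M M' q : ℕ} [NeZero M] [NeZero M'] [NeZero q]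

/-- **Level change for (DR1).** -/
theorem kvUnipotent_of_dvd (p : ℕ) (h : M ∣ M') (hU : KVUnipotent M' q p) : KVUnipotent M q p := by
  obtain ⟨d, hd, hU⟩ := hU
  have hdvd : M * q ∣ M' * q := Nat.mul_dvd_mul_right h q
  refine ⟨finrankAlong Kbar (lvl hdvd) * d,
    mul_ne_zero (finrankAlong_ne_zero _ (finiteAlong_lvl hdvd)) hd, ?_⟩
  intro k A hA σ hσ τ hτ x
  rw [mul_smul]
  apply nsmul_eq_zero_of_lvlKV hdvd
  rw [map_nsmul, map_add, map_sub, map_sub]
  simp only [lvlKV_galois]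
  exact hU k A hA σ hσ τ hτ _

end Unipotent

section NewFrob

variable {M M' q : ℕ} [NeZero M] [NeZero M'] [NeZero q] (h : M ∣ M')

theorem lvl_alpha (z : FN M) :
    lvl (Nat.mul_dvd_mul_right h q) (heckeAlphaBar Kbar M q z) =
      heckeAlphaBar Kbar M' q (lvl h z) :=
  Subtype.ext (by rw [coe_lvl, coe_heckeAlphaBar, coe_heckeAlphaBar, coe_lvl])

theorem lvl_beta (z : FN M) :
    lvl (Nat.mul_dvd_mul_right h q) (heckeBetaBar Kbar M q z) =
      heckeBetaBar Kbar M' q (lvl h z) :=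
  Subtype.ext (by rw [coe_lvl, coe_heckeBetaBar, coe_heckeBetaBar, coe_lvl])

theorem wq_alpha (hq : q.Prime) (hqM : ¬ q ∣ M) (z : FN M) :
    wq M q (heckeAlphaBar Kbar M q z) = heckeBetaBar Kbar M q z :=
  AlgHom.congr_fun (wq_comp_alpha hq hqM) z

theorem wq_beta (hq : q.Prime) (hqM : ¬ q ∣ M) (z : FN M) :
    wq M q (heckeBetaBar Kbar M q z) = heckeAlphaBar Kbar M q z :=
  AlgHom.congr_fun (wq_comp_beta hq hqM) z

theorem wq_eq_wHom (hq : q.Prime) (hqM : ¬ q ∣ M) : wq M q = Hecke.wHom M q hq hqM := by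
  rw [wq, dif_pos ⟨hq, hqM⟩]
  rfl

/-- `w_q` is compatible with the change of level. -/
theorem lvl_wq (hq : q.Prime) (hqM' : ¬ q ∣ M') (x : FN (M * q)) :
    lvl (Nat.mul_dvd_mul_right h q) (wq M q x) = wq M' q (lvl (Nat.mul_dvd_mul_right h q) x) := by
  have hqM : ¬ q ∣ M := fun h' => hqM' (h'.trans h)
  have key : ((lvl (Nat.mul_dvd_mul_right h q) : FN (M * q) →ₐ[Kbar] FN (M' * q)) :
        FN (M * q) →+* FN (M' * q)).comp ((wq M q : FN (M * q) →ₐ[Kbar] FN (M * q)) :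
          FN (M * q) →+* FN (M * q)) =
      ((wq M' q : FN (M' * q) →ₐ[Kbar] FN (M' * q)) : FN (M' * q) →+* FN (M' * q)).comp
        ((lvl (Nat.mul_dvd_mul_right h q) : FN (M * q) →ₐ[Kbar] FN (M' * q)) :
          FN (M * q) →+* FN (M' * q)) := by
    refine FNAdjoin.ringHom_ext (fun c => ?_) (fun d _ hd => ?_)
    · simp
    · show lvl (Nat.mul_dvd_mul_right h q) (wq M q _) = wq M' q (lvl (Nat.mul_dvd_mul_right h q) _)
      rcases AtkinLehner.dvd_cases hq hd with h1 | ⟨d', h1, rfl⟩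
      · rw [← AtkinLehner.alpha_jd d h1, wq_alpha hq hqM, lvl_beta h, lvl_alpha h, wq_alpha hq hqM']
      · have : NeZero d' := ⟨fun h0 => by
          subst h0
          exact NeZero.ne (0 * q) (zero_mul q)⟩
        rw [← AtkinLehner.beta_jd d' h1, wq_beta hq hqM, lvl_beta h, lvl_alpha h, wq_beta hq hqM']
  exact RingHom.congr_fun key x

/-- The norm along `α` is compatible with the change of level. -/
theorem lvl_normAlong (hq : q.Prime) (hqM' : ¬ q ∣ M') (f : FN (M * q)) :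
    lvl h (normAlong (heckeAlphaBar Kbar M q) f) =
      normAlong (heckeAlphaBar Kbar M' q) (lvl (Nat.mul_dvd_mul_right h q) f) := by
  have hqM : ¬ q ∣ M := fun h' => hqM' (h'.trans h)
  obtain ⟨ζ, hζ⟩ : ∃ ζ : Kbar, IsPrimitiveRoot ζ q :=
    HasEnoughRootsOfUnity.exists_primitiveRoot Kbar q
  apply Subtype.ext
  apply qExpand_injective (R := Kbar) (N := q)
  rw [coe_lvl, Hecke.qExpand_normAlong hq hqM hζ f,
    Hecke.qExpand_normAlong hq hqM' hζ (lvl (Nat.mul_dvd_mul_right h q) f), coe_lvl,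
    ← wq_eq_wHom hq hqM, ← wq_eq_wHom hq hqM', ← lvl_wq h hq hqM', coe_lvl]

theorem lvlKV_wKV (hq : q.Prime) (hqM' : ¬ q ∣ M') (m : ℕ) (x : KV Kbar (FN (M * q)) m) :
    lvlKV (Nat.mul_dvd_mul_right h q) m (wKV M q m x) =
      wKV M' q m (lvlKV (Nat.mul_dvd_mul_right h q) m x) := by
  obtain ⟨u, rfl⟩ := KV.mk_surjective x
  rw [wKV, KV.map_mk, lvlKV_mk, lvlKV_mk, wKV, KV.map_mk]
  refine congrArg KV.mk (Subtype.ext (Units.ext ?_))
  exact lvl_wq h hq hqM' _

theorem lvlKV_alphaKV (hq : q.Prime) (hqM' : ¬ q ∣ M') (m : ℕ) (x : KV Kbar (FN (M * q)) m) :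
    lvlKV h m (alphaKV M q m x) = alphaKV M' q m (lvlKV (Nat.mul_dvd_mul_right h q) m x) := by
  obtain ⟨u, rfl⟩ := KV.mk_surjective x
  rw [alphaKV, KV.map_mk, lvlKV_mk, lvlKV_mk, alphaKV, KV.map_mk]
  refine congrArg KV.mk (Subtype.ext (Units.ext ?_))
  exact lvl_normAlong h hq hqM' _

include h in
/-- **Level change for (DR3).** -/
theorem kvNewFrob_of_dvd (p : ℕ) (hq : q.Prime) (hqM' : ¬ q ∣ M') (hU : KVNewFrob M' q p) :
    KVNewFrob M q p := by
  obtain ⟨d, hd, hU⟩ := hU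
  refine ⟨finrankAlong Kbar (lvl (Nat.mul_dvd_mul_right h q)) * d,
    mul_ne_zero (finrankAlong_ne_zero _ (finiteAlong_lvl (Nat.mul_dvd_mul_right h q))) hd, ?_⟩
  intro k A hA σ hσ x hx1 hx2
  rw [mul_smul]
  apply nsmul_eq_zero_of_lvlKV (Nat.mul_dvd_mul_right h q)
  rw [map_nsmul, map_add, map_add, map_nsmul, map_nsmul]
  simp only [lvlKV_galois, lvlKV_wKV h hq hqM']
  exact hU k A hA σ hσ _ (by rw [← lvlKV_alphaKV h hq hqM', hx1, map_zero])
    (by rw [← lvlKV_wKV h hq hqM', ← lvlKV_alphaKV h hq hqM', hx2, map_zero])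

end NewFrob

section Neat

theorem exists_neat_multiple (M q : ℕ) [NeZero M] (hq : q.Prime) (hqM : ¬ q ∣ M) :
    ∃ M' : ℕ, M' ≠ 0 ∧ M ∣ M' ∧ (4 ∣ M' ∨ 9 ∣ M') ∧ ¬ q ∣ M' := by
  by_cases h2 : q = 2
  · subst h2
    refine ⟨M * 9, mul_ne_zero (NeZero.ne M) (by norm_num), dvd_mul_right _ _,
      Or.inr (dvd_mul_left _ _), ?_⟩
    intro h
    rcases (Nat.Prime.dvd_mul hq).mp h with h | h
    · exact hqM h
    · revert h; decide
  · refine ⟨M * 4, mul_ne_zero (NeZero.ne M) (by norm_num), dvd_mul_right _ _,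
      Or.inl (dvd_mul_left _ _), ?_⟩
    intro h
    rcases (Nat.Prime.dvd_mul hq).mp h with h | h
    · exact hqM h
    · have h4 : q ∣ 2 ^ 2 := by simpa using h
      exact h2 ((Nat.prime_dvd_prime_iff_eq hq Nat.prime_two).mp (hq.dvd_of_dvd_pow h4))

/-- It is enough to prove (DR1) at neat levels. -/
theorem kvUnipotent_of_neat
    (H : ∀ (M q p : ℕ) [NeZero M] [NeZero q], (4 ∣ M ∨ 9 ∣ M) → q.Prime → ¬ q ∣ M → p.Prime →
      q ≠ p → KVUnipotent M q p)
    (M q p : ℕ) [NeZero M] [NeZero q] (hq : q.Prime) (hqM : ¬ q ∣ M) (hp : p.Prime) (hqp : q ≠ p) :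
    KVUnipotent M q p := by
  obtain ⟨M', hM'0, hdvd, hneat, hqM'⟩ := exists_neat_multiple M q hq hqM
  haveI : NeZero M' := ⟨hM'0⟩
  exact kvUnipotent_of_dvd p hdvd (H M' q p hneat hq hqM' hp hqp)

/-- It is enough to prove (DR3) at neat levels. -/
theorem kvNewFrob_of_neat
    (H : ∀ (M q p : ℕ) [NeZero M] [NeZero q], (4 ∣ M ∨ 9 ∣ M) → q.Prime → ¬ q ∣ M → p.Prime →
      q ≠ p → KVNewFrob M q p)
    (M q p : ℕ) [NeZero M] [NeZero q] (hq : q.Prime) (hqM : ¬ q ∣ M) (hp : p.Prime) (hqp : q ≠ p) :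
    KVNewFrob M q p := by
  obtain ⟨M', hM'0, hdvd, hneat, hqM'⟩ := exists_neat_multiple M q hq hqM
  haveI : NeZero M' := ⟨hM'0⟩
  exact kvNewFrob_of_dvd hdvd p hq hqM' (H M' q p hneat hq hqM' hp hqp)

end Neat

end Fermat.Agent.DR.Gal
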