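import Fermat.Agent.DR.Gal.Defs
import Fermat.Agent.GAL.RED.Basic

/-!
# DR/Gal : abstract form of DR1

`g` a semilinear automorphism of `F / K` which is compatible with the two reductions and induces
the identity on the residue field `Fb` ("`g` is in the inertia group").  Then, given `(T)` and `(E)`:

* `smul_mk_eq_of_isNorm`, `smul_eq_of_mem_Ktor` : `g = 1` on `K_tor`;
* `smul_sub_mem_Ktor` : `(g - 1) V ⊆ K_tor`;
* `smul_sub_smul_sub` : `(g' - 1) (g - 1) = 0` on `V = KV K F m`.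
-/

set_option autoImplicit false

noncomputable section

namespace Fermat.Agent.DR.Gal

open AlgebraicCurve Fermat.Agent.GAL Fermat.Agent.GAL.RED

variable {K F k Fb : Type*} [Field K] [Field F] [Algebra K F] [Field k] [Field Fb] [Algebra k Fb]

/-! ### `regOff` and `UnitAt` -/

theorem smul_mem_regOff (g : SemilinearAut K F) {j y : F} (hj : g • j ∈ regOff K j)
    (hy : y ∈ regOff K j) : g • y ∈ regOff K j := by
  intro P hP
  have h1 : j ∈ (g⁻¹ • P).toValuationSubring := by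
    rw [SemilinearAut.smul_toValuationSubring,
      ValuationSubring.mem_pointwise_smul_iff_inv_smul_mem, inv_inv]
    exact hj P hP
  have h2 := hy (g⁻¹ • P) h1
  rw [SemilinearAut.smul_toValuationSubring,
    ValuationSubring.mem_pointwise_smul_iff_inv_smul_mem, inv_inv] at h2
  exact h2

theorem self_mem_regOff (j : F) : j ∈ regOff K j := fun _ hP => hP

theorem UnitAt.mul {P : Place K F} {u v : F} (hu : UnitAt P u) (hv : UnitAt P v) :
    UnitAt P (u * v) := by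
  refine ⟨mul_ne_zero hu.1 hv.1, P.toValuationSubring.mul_mem _ _ hu.2.1 hv.2.1, ?_⟩
  rw [mul_inv]
  exact P.toValuationSubring.mul_mem _ _ hu.2.2 hv.2.2

theorem UnitAt.pow {P : Place K F} {u : F} (hu : UnitAt P u) (n : ℕ) : UnitAt P (u ^ n) := by
  refine ⟨pow_ne_zero n hu.1, pow_mem hu.2.1 n, ?_⟩
  rw [← inv_pow]
  exact pow_mem hu.2.2 n

theorem unitAt_one (P : Place K F) : UnitAt P (1 : F) :=
  ⟨one_ne_zero, P.toValuationSubring.one_mem, by rw [inv_one]; exact P.toValuationSubring.one_mem⟩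

/-! ### `IsNorm` -/

theorem IsNorm.mem1 {X : TwoRed K F k Fb} {m : ℕ} {f : F} {c : K} (h : IsNorm X m f c) :
    f ∈ X.R1.O := X.R1.mem_of_red_ne_zero (by rw [h.red1]; exact one_ne_zero)

theorem IsNorm.ne_zero {X : TwoRed K F k Fb} {m : ℕ} {f : F} {c : K} (h : IsNorm X m f c) :
    f ≠ 0 := X.R1.ne_zero_of_red_ne_zero (by rw [h.red1]; exact one_ne_zero)

theorem IsNorm.inv {X : TwoRed K F k Fb} {m : ℕ} {f : F} {c : K} (h : IsNorm X m f c) :
    IsNorm X m f⁻¹ c⁻¹ where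
  c_ne := inv_ne_zero h.c_ne
  red1 := by rw [X.R1.red_inv, h.red1, inv_one]
  red2 := by
    have : f⁻¹ / algebraMap K F c⁻¹ ^ m = (f / algebraMap K F c ^ m)⁻¹ := by
      rw [map_inv₀, inv_pow, inv_div, div_inv_eq_mul, div_eq_mul_inv, mul_comm]
    rw [this, X.R2.red_inv, h.red2, inv_one]

/-- Reduction of a quotient `g y / y`. -/
theorem Compat.red_smul_div {R : RedData K F k Fb} {g : SemilinearAut K F}
    (h : Compat R g (RingEquiv.refl Fb)) {y : F} (hy : R.red y ≠ 0) :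
    R.red (g • y * y⁻¹) = 1 := by
  have hyO := R.mem_of_red_ne_zero hy
  rw [R.red_mul (h.mem y hyO) (R.inv_mem_of_red_ne_zero hy), h.red y hyO, R.red_inv]
  exact mul_inv_cancel₀ hy

/-! ### `g = 1` on `K_tor` -/

/-- **Inertia acts trivially on normalised classes.** -/
theorem smul_mk_eq_of_isNorm (X : TwoRed K F k Fb) {m : ℕ} (hT : Test X m) (hE : ExistsSec X m)
    (g : SemilinearAut K F) (hj : g • X.j ∈ regOff K X.j)
    (h1 : Compat X.R1 g (RingEquiv.refl Fb)) (h2 : Compat X.R2 g (RingEquiv.refl Fb))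
    (f : kummerUnits K F m) (c : K) (hf : IsNorm X m ((f : Fˣ) : F) c) :
    g • KV.mk f = KV.mk f := by
  obtain ⟨y, u, u', hy, -, -, hyS⟩ := hE f f.2 c hf
  have hfi : IsNorm X m (((f : Fˣ)⁻¹ : Fˣ) : F) c⁻¹ := by
    rw [Units.val_inv_eq_inv_val]
    exact hf.inv
  obtain ⟨y', t, t', hy', -, -, hyS'⟩ := hE (f : Fˣ)⁻¹ (inv_mem f.2) c⁻¹ hfi
  rw [Units.val_inv_eq_inv_val] at hy'
  set f0 : F := ((f : Fˣ) : F) with hf0
  have hf0ne : f0 ≠ 0 := (f : Fˣ).ne_zero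
  set C : F := algebraMap K F c with hC
  have hCne : C ≠ 0 := (map_ne_zero _).2 hf.c_ne
  have hgC : g • C = algebraMap K F (SemilinearAut.baseAut g c) := SemilinearAut.smul_algebraMap g c
  have hgCne : g • C ≠ 0 := by
    rw [hgC]
    exact (map_ne_zero _).2 ((map_ne_zero _).2 hf.c_ne)
  have hgf0ne : g • f0 ≠ 0 := by
    rw [SemilinearAut.smul_def]
    exact (map_ne_zero _).2 hf0ne
  let f' : Fˣ := semilinearUnits g f * (f : Fˣ)⁻¹
  have hf'mem : f' ∈ kummerUnits K F m := mul_mem (semilinearUnits_mem g f f.2) (inv_mem f.2)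
  have hf'val : (f' : F) = g • f0 * f0⁻¹ := by
    rw [Units.val_mul, Units.val_inv_eq_inv_val, coe_semilinearUnits]
  let c' : K := SemilinearAut.baseAut g c * c⁻¹
  have hc' : algebraMap K F c' = g • C * C⁻¹ := by
    rw [map_mul, map_inv₀, hgC]
  have hCi : algebraMap K F c⁻¹ = C⁻¹ := map_inv₀ _ _
  have hnorm : IsNorm X m (f' : F) c' := by
    refine ⟨mul_ne_zero ((map_ne_zero _).2 hf.c_ne) (inv_ne_zero hf.c_ne), ?_, ?_⟩
    · rw [hf'val]
      exact h1.red_smul_div (by rw [hf.red1]; exact one_ne_zero)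
    · have e : (f' : F) / algebraMap K F c' ^ m = g • (f0 / C ^ m) * (f0 / C ^ m)⁻¹ := by
        rw [hf'val, hc', smul_div₀', smul_pow', mul_pow, inv_pow]
        field_simp
      rw [e]
      exact h2.red_smul_div (by rw [hf.red2]; exact one_ne_zero)
  have hsecY : IsSec X m (f' : F) c' (g • y * y') (u * t) (u' * t') := by
    have e2 : algebraMap K F c' * (g • y * y') = g • (C * y) * (algebraMap K F c⁻¹ * y') := by
      rw [hc', hCi, smul_mul']
      ring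
    refine ⟨?_, X.R1.O.mul_mem _ _ (h1.mem y hy.mem1) hy'.mem1, ?_, ?_, ?_⟩
    · have e : (g • y * y') ^ m * (f' : F) = g • (y ^ m * f0) * (y' ^ m * f0⁻¹) := by
        rw [hf'val, smul_mul', smul_pow']
        ring
      rw [e]
      exact mul_mem (smul_mem_regOff g hj hy.reg) hy'.reg
    · rw [e2]
      exact X.R2.O.mul_mem _ _ (h2.mem _ hy.mem2) hy'.mem2
    · rw [X.R1.red_mul (h1.mem y hy.mem1) hy'.mem1, h1.red y hy.mem1, hy.red1, hy'.red1]
      rfl
    · rw [e2, X.R2.red_mul (h2.mem _ hy.mem2) hy'.mem2, h2.red _ hy.mem2, hy.red2, hy'.red2]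
      rfl
  have hsecz : IsSec X m 1 1 (y * y') (u * t) (u' * t') := by
    have e2 : algebraMap K F 1 * (y * y') = (C * y) * (algebraMap K F c⁻¹ * y') := by
      rw [hCi, map_one]
      field_simp
    refine ⟨?_, X.R1.O.mul_mem _ _ hy.mem1 hy'.mem1, ?_, ?_, ?_⟩
    · have e : (y * y') ^ m * 1 = (y ^ m * f0) * (y' ^ m * f0⁻¹) := by
        rw [mul_pow]
        field_simp
      rw [e]
      exact mul_mem hy.reg hy'.reg
    · rw [e2]
      exact X.R2.O.mul_mem _ _ hy.mem2 hy'.mem2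
    · rw [X.R1.red_mul hy.mem1 hy'.mem1, hy.red1, hy'.red1]
    · rw [e2, X.R2.red_mul hy.mem2 hy'.mem2, hy.red2, hy'.red2]
  obtain ⟨x, hx⟩ := hT f' hf'mem c' hnorm _ _ _ _ hsecY hsecz
    (fun P hP => ⟨(hyS P hP).1.mul (hyS' P hP).1, (hyS P hP).2.mul (hyS' P hP).2⟩)
  rw [KV.semilinear_smul_mk, KV.mk_eq_mk_iff]
  exact ⟨x, by rw [hx]; exact inv_mul_cancel_right _ _⟩

/-- Every class of `K_tor` has a normalised representative. -/
theorem exists_isNorm_of_mem_Ktor (X : TwoRed K F k Fb) {m : ℕ} (hP : PairSurj X)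
    (hS2 : HasScale X.R2) {x : KV K F m} (hx : x ∈ Ktor X m) :
    ∃ (f : kummerUnits K F m) (c : K), KV.mk f = x ∧ IsNorm X m ((f : Fˣ) : F) c := by
  obtain ⟨⟨f1, hf1, hr1⟩, ⟨f2, hf2, hr2⟩⟩ := hx
  obtain ⟨h, hh⟩ := (KV.mk_eq_mk_iff f1 f2).1 (hf1.trans hf2.symm)
  obtain ⟨a, ha, hah⟩ := hS2 (h : F) h.ne_zero
  obtain ⟨y, hy1, hy2, hyr1, hyr2⟩ := hP 1 (X.R2.red (algebraMap K F a * h))
  have hyne : y ≠ 0 := X.R1.ne_zero_of_red_ne_zero (by rw [hyr1]; exact one_ne_zero)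
  let Y : Fˣ := Units.mk0 y hyne
  refine ⟨f1 * ⟨(Y ^ m)⁻¹, inv_mem (pow_mem_kummerUnits m Y)⟩, a⁻¹, ?_, inv_ne_zero ha, ?_, ?_⟩
  · rw [KV.mk_mul, hf1, add_eq_left, KV.mk_eq_zero_iff]
    exact ⟨Y⁻¹, by rw [inv_pow]⟩
  · have e : (((f1 * ⟨(Y ^ m)⁻¹, inv_mem (pow_mem_kummerUnits m Y)⟩ : kummerUnits K F m) : Fˣ) : F)
        = ((f1 : Fˣ) : F) * (y ^ m)⁻¹ := by
      rw [Subgroup.coe_mul, Units.val_mul, Units.val_inv_eq_inv_val, Units.val_pow_eq_pow_val]
      rfl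
    have hym : X.R1.red (y ^ m) = 1 := by rw [X.R1.red_pow, hyr1, one_pow]
    rw [e, X.R1.red_mul (X.R1.mem_of_red_ne_zero (by rw [hr1]; exact one_ne_zero))
      (X.R1.inv_mem_of_red_ne_zero (by rw [hym]; exact one_ne_zero)), hr1, X.R1.red_inv, hym,
      inv_one, mul_one]
  · have hh' : ((f1 : Fˣ) : F) = (h : F) ^ m * ((f2 : Fˣ) : F) := by
      rw [← hh, Units.val_mul, Units.val_pow_eq_pow_val]
    have hane : algebraMap K F a ≠ 0 := (map_ne_zero _).2 ha
    have e : (((f1 * ⟨(Y ^ m)⁻¹, inv_mem (pow_mem_kummerUnits m Y)⟩ : kummerUnits K F m) : Fˣ) : F)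
        / algebraMap K F a⁻¹ ^ m
        = (algebraMap K F a * h) ^ m * ((f2 : Fˣ) : F) * (y ^ m)⁻¹ := by
      rw [Subgroup.coe_mul, Units.val_mul, Units.val_inv_eq_inv_val, Units.val_pow_eq_pow_val, hh',
        map_inv₀]
      show (h : F) ^ m * ((f2 : Fˣ) : F) * (y ^ m)⁻¹ / (algebraMap K F a)⁻¹ ^ m = _
      rw [mul_pow, inv_pow]
      field_simp
    have hym : X.R2.red (y ^ m) = X.R2.red (algebraMap K F a * h) ^ m := by
      rw [X.R2.red_pow, hyr2]
    have hym0 : X.R2.red (y ^ m) ≠ 0 := by rw [hym]; exact pow_ne_zero _ hah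
    have hahm : X.R2.red ((algebraMap K F a * h) ^ m) = X.R2.red (algebraMap K F a * h) ^ m :=
      X.R2.red_pow _ _
    have hahO : (algebraMap K F a * h) ^ m ∈ X.R2.O := pow_mem (X.R2.mem_of_red_ne_zero hah) m
    have hf2O : ((f2 : Fˣ) : F) ∈ X.R2.O :=
      X.R2.mem_of_red_ne_zero (by rw [hr2]; exact one_ne_zero)
    rw [e, X.R2.red_mul (X.R2.O.mul_mem _ _ hahO hf2O) (X.R2.inv_mem_of_red_ne_zero hym0),
      X.R2.red_mul hahO hf2O, hr2, mul_one, X.R2.red_inv, hym, hahm]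
    exact mul_inv_cancel₀ (pow_ne_zero _ hah)

/-- **Inertia acts trivially on `K_tor`.** -/
theorem smul_eq_of_mem_Ktor (X : TwoRed K F k Fb) {m : ℕ} (hT : Test X m) (hE : ExistsSec X m)
    (hP : PairSurj X) (hS2 : HasScale X.R2)
    (g : SemilinearAut K F) (hj : g • X.j ∈ regOff K X.j)
    (h1 : Compat X.R1 g (RingEquiv.refl Fb)) (h2 : Compat X.R2 g (RingEquiv.refl Fb))
    {x : KV K F m} (hx : x ∈ Ktor X m) : g • x = x := by
  obtain ⟨f, c, rfl, hf⟩ := exists_isNorm_of_mem_Ktor X hP hS2 hx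
  exact smul_mk_eq_of_isNorm X hT hE g hj h1 h2 f c hf

/-! ### `(g - 1) V ⊆ K_tor` -/

/-- The class of a constant vanishes. -/
theorem mk_eq_zero_of_const {m : ℕ} (hroot : ∀ a : K, ∃ c : K, c ^ m = a)
    (u : kummerUnits K F m) (a : K) (hu : ((u : Fˣ) : F) = algebraMap K F a) : KV.mk u = 0 := by
  obtain ⟨c, hc⟩ := hroot a
  have hc0 : algebraMap K F c ≠ 0 := by
    intro h
    apply (u : Fˣ).ne_zero
    rw [hu, ← hc, map_pow, h]
    rcases Nat.eq_zero_or_pos m with rfl | hm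
    · exfalso
      obtain ⟨c', hc'⟩ := hroot 0
      rw [pow_zero] at hc'
      exact one_ne_zero hc'
    · exact zero_pow hm.ne'
  rw [KV.mk_eq_zero_iff]
  refine ⟨Units.mk0 _ hc0, ?_⟩
  apply Units.ext
  rw [Units.val_pow_eq_pow_val, Units.val_mk0, hu, ← hc, map_pow]

theorem smul_sub_mem_Kone (R : RedData K F k Fb) {m : ℕ} (hroot : ∀ a : K, ∃ c : K, c ^ m = a)
    (hS : HasScale R) (g : SemilinearAut K F) (h : Compat R g (RingEquiv.refl Fb))
    (x : KV K F m) : g • x - x ∈ Kone R m := by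
  obtain ⟨f, rfl⟩ := KV.mk_surjective x
  obtain ⟨a, ha, haf⟩ := hS ((f : Fˣ) : F) (f : Fˣ).ne_zero
  have hane : algebraMap K F a ≠ 0 := (map_ne_zero _).2 ha
  let a' : Fˣ := Units.mk0 _ hane
  have ha'mem : a' ∈ kummerUnits K F m := by
    intro P
    have h1 : (a' : F) ∈ P.toValuationSubring := P.algebraMap_mem' a
    have h2 : (a' : F)⁻¹ ∈ P.toValuationSubring := by
      rw [Units.val_mk0, ← map_inv₀]
      exact P.algebraMap_mem' _
    let w : P.toValuationSubringˣ := ⟨⟨_, h1⟩, ⟨_, h2⟩, Subtype.ext (mul_inv_cancel₀ hane),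
      Subtype.ext (inv_mul_cancel₀ hane)⟩
    have := P.ord_coe_unit w
    have e : ((w : P.toValuationSubring) : F) = (a' : F) := rfl
    rw [e] at this
    rw [this]
    exact dvd_zero _
  let A' : kummerUnits K F m := ⟨a', ha'mem⟩
  have hA' : KV.mk A' = 0 := mk_eq_zero_of_const hroot A' a rfl
  refine ⟨⟨semilinearUnits g (A' * f : kummerUnits K F m),
    semilinearUnits_mem g _ (A' * f : kummerUnits K F m).2⟩ * (A' * f)⁻¹, ?_, ?_⟩
  · rw [KV.mk_mul, KV.mk_inv, ← KV.semilinear_smul_mk, KV.mk_mul, hA', zero_add, sub_eq_add_neg]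
  · have e : (((⟨semilinearUnits g (A' * f : kummerUnits K F m),
        semilinearUnits_mem g _ (A' * f : kummerUnits K F m).2⟩ * (A' * f)⁻¹ :
          kummerUnits K F m) : Fˣ) : F)
        = g • (algebraMap K F a * ((f : Fˣ) : F)) * (algebraMap K F a * ((f : Fˣ) : F))⁻¹ := by
      rw [Subgroup.coe_mul, Units.val_mul, Subgroup.coe_inv, Units.val_inv_eq_inv_val]
      rfl
    rw [e]
    exact h.red_smul_div haf

theorem smul_sub_mem_Ktor (X : TwoRed K F k Fb) {m : ℕ} (hroot : ∀ a : K, ∃ c : K, c ^ m = a)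
    (hS1 : HasScale X.R1) (hS2 : HasScale X.R2) (g : SemilinearAut K F)
    (h1 : Compat X.R1 g (RingEquiv.refl Fb)) (h2 : Compat X.R2 g (RingEquiv.refl Fb))
    (x : KV K F m) : g • x - x ∈ Ktor X m :=
  ⟨smul_sub_mem_Kone X.R1 hroot hS1 g h1 x, smul_sub_mem_Kone X.R2 hroot hS2 g h2 x⟩

/-- **DR1 (abstract form)**: `(g' - 1) (g - 1) = 0` on `V_m(F)` for `g, g'` "in the inertia group". -/
theorem smul_sub_smul_sub (X : TwoRed K F k Fb) {m : ℕ} (hT : Test X m) (hE : ExistsSec X m)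
    (hP : PairSurj X) (hS1 : HasScale X.R1) (hS2 : HasScale X.R2)
    (hroot : ∀ a : K, ∃ c : K, c ^ m = a)
    (g g' : SemilinearAut K F) (hj' : g' • X.j ∈ regOff K X.j)
    (h1 : Compat X.R1 g (RingEquiv.refl Fb)) (h2 : Compat X.R2 g (RingEquiv.refl Fb))
    (h1' : Compat X.R1 g' (RingEquiv.refl Fb)) (h2' : Compat X.R2 g' (RingEquiv.refl Fb))
    (x : KV K F m) : g' • (g • x - x) = g • x - x :=
  smul_eq_of_mem_Ktor X hT hE hP hS2 g' hj' h1' h2' (smul_sub_mem_Ktor X hroot hS1 hS2 g h1 h2 x)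

end Fermat.Agent.DR.Gal
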