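import Fermat.Agent.DR.Gal.DR1

/-!
# DR/Gal : abstract form of DR2

`w` a `K`-linear involution of `F` with `R2 = R1 ∘ w`; `φ` a semilinear automorphism commuting with
`w`, compatible with `R1` and inducing `Fr` on `Fb` ("`φ` is a Frobenius element").  `OLD`: every
`v ∈ regOff k jb` gives an integral function `z` of `F`, regular outside the cusps, with
`(red₁ z, red₂ z) = (Fr v, v ^ q)` (`z = α^*` of a lift of `Fr v`).  Then, given `(T)` and `(E)`,

  `φ x + q • w x = 0`  for all `x ∈ K_tor`.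
-/

set_option autoImplicit false

noncomputable section

namespace Fermat.Agent.DR.Gal

open AlgebraicCurve Fermat.Agent.GAL Fermat.Agent.GAL.RED

variable {K F k Fb : Type*} [Field K] [Field F] [Algebra K F] [Field k] [Field Fb] [Algebra k Fb]

/-- `w` exchanges the two reductions of `X`. -/
structure Swaps (X : TwoRed K F k Fb) (w : SemilinearAut K F) : Prop where
  const : ∀ a : K, w • algebraMap K F a = algebraMap K F a
  invol : ∀ y : F, w • w • y = y
  mem : ∀ y : F, y ∈ X.R2.O ↔ w • y ∈ X.R1.O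
  red : ∀ y : F, X.R2.red y = X.R1.red (w • y)
  reg : w • X.j ∈ regOff K X.j

/-- The old functions: `(Fr v, v ^ q)` is the reduction of an integral function which is regular
outside the cusps. -/
def Old (X : TwoRed K F k Fb) (Fr : Fb ≃+* Fb) (q : ℕ) : Prop :=
  ∀ v ∈ regOff k X.jb, ∃ z ∈ regOff K X.j, z ∈ X.R1.O ∧ z ∈ X.R2.O ∧
    X.R1.red z = Fr v ∧ X.R2.red z = v ^ q

/-- `Fr` preserves the functions which are units at all places of `S`. -/
def PreservesUnits (X : TwoRed K F k Fb) (Fr : Fb ≃+* Fb) : Prop :=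
  ∀ u : Fb, (∀ P ∈ X.S, UnitAt P u) → ∀ P ∈ X.S, UnitAt P (Fr u)

theorem Swaps.mem' {X : TwoRed K F k Fb} {w : SemilinearAut K F} (hw : Swaps X w) (y : F) :
    w • y ∈ X.R2.O ↔ y ∈ X.R1.O := by rw [hw.mem, hw.invol]

theorem Swaps.red' {X : TwoRed K F k Fb} {w : SemilinearAut K F} (hw : Swaps X w) (y : F) :
    X.R2.red (w • y) = X.R1.red y := by rw [hw.red, hw.invol]

/-- Compatibility with `R1` implies compatibility with `R2`. -/
theorem Swaps.compat {X : TwoRed K F k Fb} {w : SemilinearAut K F} (hw : Swaps X w)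
    {g : SemilinearAut K F} {gb : Fb ≃+* Fb} (hg : Compat X.R1 g gb)
    (hwg : ∀ y : F, w • g • y = g • w • y) : Compat X.R2 g gb where
  mem y hy := by
    rw [hw.mem, hwg]
    exact hg.mem _ ((hw.mem y).1 hy)
  red y hy := by
    rw [hw.red, hwg, hg.red _ ((hw.mem y).1 hy), ← hw.red]

/-- **DR2 for a normalised class.** -/
theorem frob_add_smul_mk_of_isNorm (X : TwoRed K F k Fb) {m : ℕ} (q : ℕ) (hT : Test X m)
    (hE : ExistsSec X m) (w φ : SemilinearAut K F) (Fr : Fb ≃+* Fb) (hw : Swaps X w)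
    (hwφ : ∀ y : F, w • φ • y = φ • w • y) (hφj : φ • X.j ∈ regOff K X.j)
    (hφ : Compat X.R1 φ Fr) (hFr : PreservesUnits X Fr) (hold : Old X Fr q)
    (f : kummerUnits K F m) (c : K) (hf : IsNorm X m ((f : Fˣ) : F) c) :
    φ • KV.mk f + q • (w • KV.mk f) = 0 := by
  obtain ⟨y, u, u', hy, hu, hu', hyS⟩ := hE f f.2 c hf
  obtain ⟨z1, hz1reg, hz1O1, hz1O2, hz1r1, hz1r2⟩ := hold u hu
  obtain ⟨z2, hz2reg, hz2O1, hz2O2, hz2r1, hz2r2⟩ := hold u' hu'
  set f0 : F := ((f : Fˣ) : F) with hf0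
  have hf0ne : f0 ≠ 0 := (f : Fˣ).ne_zero
  set C : F := algebraMap K F c with hC
  have hCne : C ≠ 0 := (map_ne_zero _).2 hf.c_ne
  have hφC : φ • C = algebraMap K F (SemilinearAut.baseAut φ c) := SemilinearAut.smul_algebraMap φ c
  have hφCne : φ • C ≠ 0 := by
    rw [hφC]
    exact (map_ne_zero _).2 ((map_ne_zero _).2 hf.c_ne)
  have hwC : w • C = C := hw.const c
  let Cu : Fˣ := Units.mk0 C hCne
  let f' : Fˣ := semilinearUnits φ f * semilinearUnits w f ^ q * ((Cu ^ q) ^ m)⁻¹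
  have hf'mem : f' ∈ kummerUnits K F m :=
    mul_mem (mul_mem (semilinearUnits_mem φ f f.2) (pow_mem (semilinearUnits_mem w f f.2) q))
      (inv_mem (pow_mem_kummerUnits m _))
  have hf'val : (f' : F) = φ • f0 * (w • f0) ^ q * ((C ^ q) ^ m)⁻¹ := by
    rw [Units.val_mul, Units.val_mul, Units.val_inv_eq_inv_val, Units.val_pow_eq_pow_val,
      Units.val_pow_eq_pow_val, Units.val_pow_eq_pow_val, coe_semilinearUnits,
      coe_semilinearUnits]
    rfl
  let c' : K := SemilinearAut.baseAut φ c * (c ^ q)⁻¹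
  have hc' : algebraMap K F c' = φ • C * (C ^ q)⁻¹ := by
    rw [map_mul, map_inv₀, map_pow, hφC]
  -- the two normalised functions
  have hg1 : X.R1.red f0 = 1 := hf.red1
  have hg2 : X.R1.red (w • (f0 / C ^ m)) = 1 := by rw [← hw.red]; exact hf.red2
  have hg1O : f0 ∈ X.R1.O := hf.mem1
  have hg2O : w • (f0 / C ^ m) ∈ X.R1.O :=
    X.R1.mem_of_red_ne_zero (by rw [hg2]; exact one_ne_zero)
  have hwdiv : w • (f0 / C ^ m) = w • f0 / C ^ m := by rw [smul_div₀', smul_pow', hwC]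
  have hnorm : IsNorm X m (f' : F) c' := by
    refine ⟨mul_ne_zero ((map_ne_zero _).2 hf.c_ne) (inv_ne_zero (pow_ne_zero _ hf.c_ne)), ?_, ?_⟩
    · have e : (f' : F) = φ • f0 * (w • (f0 / C ^ m)) ^ q := by
        rw [hf'val, hwdiv, div_pow, ← pow_mul, ← pow_mul, mul_comm q m]
        field_simp
      rw [e, X.R1.red_mul (hφ.mem _ hg1O) (pow_mem hg2O q), hφ.red _ hg1O, hg1, map_one,
        X.R1.red_pow, hg2, one_pow, one_mul]
    · have e : w • ((f' : F) / algebraMap K F c' ^ m) = φ • (w • (f0 / C ^ m)) * f0 ^ q := by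
        rw [hf'val, hc', hwdiv]
        simp only [smul_mul', smul_pow', smul_inv'', smul_div₀', hw.invol, hwφ, hwC, mul_pow,
          inv_pow]
        field_simp
      rw [hw.red, e, X.R1.red_mul (hφ.mem _ hg2O) (pow_mem hg1O q), hφ.red _ hg2O, hg2, map_one,
        X.R1.red_pow, hg1, one_pow, one_mul]
  -- the section `Y`
  have hy2O : w • (C * y) ∈ X.R1.O := (hw.mem _).1 hy.mem2
  have hy2r : X.R1.red (w • (C * y)) = u' := by rw [← hw.red]; exact hy.red2
  have hsecY : IsSec X m (f' : F) c' (φ • y * (w • (C * y)) ^ q) (Fr u * u' ^ q)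
      (Fr u' * u ^ q) := by
    have e2 : w • (algebraMap K F c' * (φ • y * (w • (C * y)) ^ q))
        = φ • (w • (C * y)) * y ^ q := by
      rw [hc']
      simp only [smul_mul', smul_pow', smul_inv'', hw.invol, hwφ, hwC, mul_pow]
      field_simp
    refine ⟨?_, X.R1.O.mul_mem _ _ (hφ.mem y hy.mem1) (pow_mem hy2O q), ?_, ?_, ?_⟩
    · have e : (φ • y * (w • (C * y)) ^ q) ^ m * (f' : F)
          = φ • (y ^ m * f0) * (w • (y ^ m * f0)) ^ q := by
        rw [hf'val, smul_mul', smul_mul', smul_mul', smul_pow', smul_pow', hwC]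
        simp only [mul_pow, ← pow_mul]
        rw [mul_comm q m]
        field_simp
      rw [e]
      exact mul_mem (smul_mem_regOff φ hφj hy.reg) (pow_mem (smul_mem_regOff w hw.reg hy.reg) q)
    · rw [hw.mem, e2]
      exact X.R1.O.mul_mem _ _ (hφ.mem _ hy2O) (pow_mem hy.mem1 q)
    · rw [X.R1.red_mul (hφ.mem y hy.mem1) (pow_mem hy2O q), hφ.red y hy.mem1, hy.red1,
        X.R1.red_pow, hy2r]
    · rw [hw.red, e2, X.R1.red_mul (hφ.mem _ hy2O) (pow_mem hy.mem1 q), hφ.red _ hy2O, hy2r,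
        X.R1.red_pow, hy.red1]
  -- the old function `z`
  have hsecz : IsSec X m 1 1 (z1 * w • z2) (Fr u * u' ^ q) (Fr u' * u ^ q) := by
    have e2 : w • (algebraMap K F 1 * (z1 * w • z2)) = w • z1 * z2 := by
      rw [map_one, one_mul, smul_mul', hw.invol]
    have hwz1 : w • z1 ∈ X.R1.O := (hw.mem _).1 hz1O2
    have hwz2 : w • z2 ∈ X.R1.O := (hw.mem _).1 hz2O2
    refine ⟨?_, X.R1.O.mul_mem _ _ hz1O1 hwz2, ?_, ?_, ?_⟩
    · rw [mul_one]
      exact pow_mem (mul_mem hz1reg (smul_mem_regOff w hw.reg hz2reg)) m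
    · rw [hw.mem, e2]
      exact X.R1.O.mul_mem _ _ hwz1 hz2O1
    · rw [X.R1.red_mul hz1O1 hwz2, hz1r1, ← hw.red, hz2r2]
    · rw [hw.red, e2, X.R1.red_mul hwz1 hz2O1, ← hw.red, hz1r2, hz2r1, mul_comm]
  obtain ⟨x, hx⟩ := hT f' hf'mem c' hnorm _ _ _ _ hsecY hsecz (fun P hP =>
    ⟨(hFr u (fun P hP => (hyS P hP).1) P hP).mul ((hyS P hP).2.pow q),
      (hFr u' (fun P hP => (hyS P hP).2) P hP).mul ((hyS P hP).1.pow q)⟩)
  rw [KV.semilinear_smul_mk, KV.semilinear_smul_mk, ← KV.mk_pow, ← KV.mk_mul, KV.mk_eq_zero_iff]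
  refine ⟨x * Cu ^ q, ?_⟩
  rw [mul_pow, hx]
  exact inv_mul_cancel_right _ _

/-- **DR2 (abstract form)**: `φ = - q w` on `K_tor`. -/
theorem frob_add_smul_of_mem_Ktor (X : TwoRed K F k Fb) {m : ℕ} (q : ℕ) (hT : Test X m)
    (hE : ExistsSec X m) (hP : PairSurj X) (hS2 : HasScale X.R2)
    (w φ : SemilinearAut K F) (Fr : Fb ≃+* Fb) (hw : Swaps X w)
    (hwφ : ∀ y : F, w • φ • y = φ • w • y) (hφj : φ • X.j ∈ regOff K X.j)
    (hφ : Compat X.R1 φ Fr) (hFr : PreservesUnits X Fr) (hold : Old X Fr q)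
    {x : KV K F m} (hx : x ∈ Ktor X m) : φ • x + q • (w • x) = 0 := by
  obtain ⟨f, c, rfl, hf⟩ := exists_isNorm_of_mem_Ktor X hP hS2 hx
  exact frob_add_smul_mk_of_isNorm X q hT hE w φ Fr hw hwφ hφj hφ hFr hold f c hf

end Fermat.Agent.DR.Gal
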