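import Fermat.Agent.DR.Interface
import Fermat.Agent.DR.S34.Bridge
import Fermat.Agent.GAL.Assembly

/-!
# DR/Gal: from the Kummer model to matrices (S34)

`KVUnipotent M q p` (DR1, on `V_{p^k}(F(M q))`, up to a fixed integer `d ≠ 0`) together with the
GAL inputs (`TorsDatum`, `KVUnramified`, `KVFrobRel`) gives `S34.GeomInputDR`.
-/

set_option autoImplicit false

namespace Fermat.Agent.DR.Gal

open Fermat.Agent.GAL Fermat.Agent.S24 Fermat.Agent.GAL.Tors

theorem matrix_eq_zero_of_nsmul {p : ℕ} [Fact p.Prime] {r s : ℕ} {B : Matrix (Fin r) (Fin s) ℤ_[p]}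
    {d : ℕ} (hd : d ≠ 0) (h : d • B = 0) : B = 0 := by
  ext i j
  have h1 := congrFun (congrFun h i) j
  rw [Matrix.smul_apply, Matrix.zero_apply, nsmul_eq_mul, mul_eq_zero] at h1
  rcases h1 with h1 | h1
  · exact absurd (Nat.cast_eq_zero.mp h1) hd
  · exact h1

/-- A relation `d (σ - 1)(τ - 1) = 0` on all the finite levels passes to the `p`-adic limit. -/
theorem rho_unip {N L p : ℕ} [NeZero N] [Fact p.Prime] (D : TorsionTower N L p) (d : ℕ)
    (hd : d ≠ 0) (σ τ : GQ)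
    (h : ∀ (k : ℕ) (x : D.V k), d • (σ • τ • x - σ • x - τ • x + x) = 0) :
    (D.rho σ - 1) * (D.rho τ - 1) = 0 := by
  apply matrix_eq_zero_of_nsmul hd
  apply D.eq_zero_of_forall
  intro k x
  have h1 : (D.rho σ - 1) * (D.rho τ - 1) = D.rho σ * D.rho τ - D.rho σ - D.rho τ + 1 := by
    noncomm_ring
  rw [h1, map_nsmul, Matrix.smul_mulVec, map_nsmul, map_add, map_sub, map_sub, map_mul, map_one,
    Matrix.add_mulVec, Matrix.sub_mulVec, Matrix.sub_mulVec, ← Matrix.mulVec_mulVec,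
    Matrix.one_mulVec, map_add, map_sub, map_sub, D.rho_spec, D.rho_spec, D.rho_spec]
  exact h k (D.e k x)

/-- **`GeomInputDR`** from the outputs of TORS, RED, HECKE (project GAL) and (DR1). -/
theorem geomInputDR_of
    (hT : ∀ (N : ℕ) [NeZero N], Nonempty (TorsDatum N))
    (hU : ∀ (N p : ℕ) [NeZero N] [Fact p.Prime], KVUnramified N N p)
    (hF : ∀ (N p : ℕ) [NeZero N] [Fact p.Prime], KVFrobRel N N p)
    (hDR : ∀ (M q p : ℕ) [NeZero M] [NeZero q], q.Prime → ¬ q ∣ M → p.Prime → q ≠ p →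
      KVUnipotent M q p) : S34.GeomInputDR := by
  intro N p _ _ q hq hqp hqN hq2
  obtain ⟨M, rfl⟩ : ∃ M, N = M * q := ⟨N / q, (Nat.div_mul_cancel hqN).symm⟩
  have hqM : ¬ q ∣ M := fun h => hq2 (by rw [pow_two]; exact Nat.mul_dvd_mul h dvd_rfl)
  haveI : NeZero M := ⟨fun h => NeZero.ne (M * q) (by rw [h, zero_mul])⟩
  haveI : NeZero q := ⟨hq.ne_zero⟩
  obtain ⟨DT⟩ := hT (M * q)
  obtain ⟨d, hd, h⟩ := hDR M q p hq hqM Fact.out hqp
  refine ⟨M * q, NeZero.ne _, (torsionTower dvd_rfl DT (hU _ p) (hF _ p)).toESDatumAt, ?_⟩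
  intro A hA σ hσ
  exact rho_unip (torsionTower dvd_rfl DT (hU _ p) (hF _ p)) d hd σ σ
    (fun k x => h k A hA σ hσ σ hσ x)

end Fermat.Agent.DR.Gal
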